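import Fermat.Agent.JM17.Ext

/-!
# S25 (kb 73), block M3 + M5 in terms of `H¹` only
-/

set_option autoImplicit false

universe u

open CategoryTheory CategoryTheory.Limits AlgebraicGeometry AlgebraicGeometry.RelPicard
  NeronModelInfra

namespace Fermat.Agent.JM17

variable {k : Type u} [Field k] {C : Scheme.{u}} {c : C ⟶ Spec (CommRingCat.of k)}
  {ε : SchemeHomOver (𝟙 (Spec (CommRingCat.of k))) c}

/-- The scheme `J` representing `T ↦ ker (H¹(C_T) → H¹(T))` satisfies the existence part of the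
valuative criterion. `rPt`: classes of points. -/
theorem existence_of_H1 [IsProper c] (H : Scheme.{u} → Type u) [∀ X, CommGroup (H X)]
    (map : ∀ {X Y : Scheme.{u}}, (X ⟶ Y) → H Y →* H X)
    (map_comp : ∀ {X Y Z : Scheme.{u}} (f : X ⟶ Y) (g : Y ⟶ Z) (h : H Z),
      map (f ≫ g) h = map f (map g h))
    (rPt : ∀ {T : Scheme.{u}} (t : T ⟶ Spec (CommRingCat.of k)), SchemeHomOver t c →
      H (pullback c t))
    (rig : ∀ {T : Scheme.{u}} (t : T ⟶ Spec (CommRingCat.of k)) (y : SchemeHomOver t c),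
      map (rigSection c t ε) (rPt t y) = 1)
    (nat : ∀ {T T' : Scheme.{u}} (t : T ⟶ Spec (CommRingCat.of k))
      (t' : T' ⟶ Spec (CommRingCat.of k)) (g : SchemeHomOver t' t) (y : SchemeHomOver t c),
      map (baseChangeSnd c g) (rPt t y) = rPt t' (postComp y g))
    (gen : ∀ (K : Type u) [Field K] [IsAlgClosed K] (s : Spec (CommRingCat.of K) ⟶
      Spec (CommRingCat.of k)) (h : H (pullback c s)), map (rigSection c s ε) h = 1 →
      h ∈ Subgroup.closure (Set.range (rPt s)))
    {J : Scheme.{u}} (p : J ⟶ Spec (CommRingCat.of k)) (u : H (pullback c p))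
    (hu : map (rigSection c p ε) u = 1)
    (univ : ∀ {T : Scheme.{u}} (t : T ⟶ Spec (CommRingCat.of k)) (h : H (pullback c t)),
      map (rigSection c t ε) h = 1 → ∃! g : SchemeHomOver t p, map (baseChangeSnd c g) u = h) :
    ValuativeCriterion.Existence p := by
  have key : ∀ {T T' : Scheme.{u}} (t : T ⟶ Spec (CommRingCat.of k))
      (t' : T' ⟶ Spec (CommRingCat.of k)) (g : SchemeHomOver t' t) (h : H (pullback c t)),
      map (rigSection c t ε) h = 1 → map (rigSection c t' ε) (map (baseChangeSnd c g) h) = 1 := by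
    intro T T' t t' g h hh
    rw [← map_comp, rigSection_baseChangeSnd, map_comp, hh, map_one]
  apply JM.existence_of_isAlgClosed
  intro S hS
  let s := Spec.map (CommRingCat.ofHom (algebraMap S.R S.K)) ≫ S.i₂
  let g : SchemeHomOver s S.i₂ := ⟨Spec.map (CommRingCat.ofHom (algebraMap S.R S.K)), rfl⟩
  let z : SchemeHomOver s p := ⟨S.i₁, S.commSq.w⟩
  let G : Subgroup (H (pullback c s)) :=
    ((map (rigSection c S.i₂ ε)).ker).map (map (baseChangeSnd c g))
  have hG : Subgroup.closure (Set.range (rPt s)) ≤ G := by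
    rw [Subgroup.closure_le]
    rintro _ ⟨y, rfl⟩
    obtain ⟨y', hy'⟩ := exists_extend_pt S.i₂ y
    refine ⟨rPt S.i₂ y', rig S.i₂ y', ?_⟩
    rw [nat S.i₂ s g y']
    exact congrArg (rPt s) hy'
  obtain ⟨h', hh', hh⟩ := hG (gen S.K s (map (baseChangeSnd c z) u) (key p s z u hu))
  obtain ⟨w, hw, -⟩ := univ S.i₂ h' hh'
  obtain ⟨z', -, hz'⟩ := univ s (map (baseChangeSnd c z) u) (key p s z u hu)
  have h1 : map (baseChangeSnd c (postComp w g)) u = map (baseChangeSnd c z) u := by
    rw [← baseChangeSnd_comp, map_comp]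
    rw [show map (baseChangeSnd c w) u = h' from hw]
    exact hh
  have h2 : postComp w g = z := (hz' _ h1).trans (hz' z rfl).symm
  exact ⟨⟨⟨w.1, congrArg Subtype.val h2, w.2⟩⟩⟩

end Fermat.Agent.JM17
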