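import Fermat.Agent.JM17.ExtH

/-!
# S25 (kb 73), block M: rigidified classes of points from a class on `C × C`
-/

set_option autoImplicit false

noncomputable section

universe u

open CategoryTheory CategoryTheory.Limits AlgebraicGeometry AlgebraicGeometry.RelPicard
  NeronModelInfra

namespace Fermat.Agent.JM17

variable {k : Type u} [Field k] {C : Scheme.{u}} (c : C ⟶ Spec (CommRingCat.of k))
  (ε : SchemeHomOver (𝟙 (Spec (CommRingCat.of k))) c)

/-- the morphism `1 × y : C_T → C × C` -/
def phi {T : Scheme.{u}} (t : T ⟶ Spec (CommRingCat.of k)) (y : SchemeHomOver t c) :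
    pullback c t ⟶ pullback c c :=
  pullback.lift (pullback.fst c t) (pullback.snd c t ≫ y.1)
    (by rw [Category.assoc, y.2, pullback.condition])

@[reassoc (attr := simp)]
theorem phi_fst {T : Scheme.{u}} (t : T ⟶ Spec (CommRingCat.of k)) (y : SchemeHomOver t c) :
    phi c t y ≫ pullback.fst c c = pullback.fst c t := pullback.lift_fst _ _ _

@[reassoc (attr := simp)]
theorem phi_snd {T : Scheme.{u}} (t : T ⟶ Spec (CommRingCat.of k)) (y : SchemeHomOver t c) :
    phi c t y ≫ pullback.snd c c = pullback.snd c t ≫ y.1 := pullback.lift_snd _ _ _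

theorem bcs_snd {T T' : Scheme.{u}} {t : T ⟶ Spec (CommRingCat.of k)}
    {t' : T' ⟶ Spec (CommRingCat.of k)} (g : SchemeHomOver t' t) :
    baseChangeSnd c g ≫ pullback.snd c t = pullback.snd c t' ≫ g.1 := pullback.lift_snd _ _ _

theorem bcs_fst {T T' : Scheme.{u}} {t : T ⟶ Spec (CommRingCat.of k)}
    {t' : T' ⟶ Spec (CommRingCat.of k)} (g : SchemeHomOver t' t) :
    baseChangeSnd c g ≫ pullback.fst c t = pullback.fst c t' :=
  (pullback.lift_fst _ _ _).trans (Category.comp_id _)

theorem baseChangeSnd_phi {T T' : Scheme.{u}} (t : T ⟶ Spec (CommRingCat.of k))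
    (t' : T' ⟶ Spec (CommRingCat.of k)) (g : SchemeHomOver t' t) (y : SchemeHomOver t c) :
    baseChangeSnd c g ≫ phi c t y = phi c t' (postComp y g) := by
  apply pullback.hom_ext
  · rw [Category.assoc, phi_fst, bcs_fst, phi_fst]
  · rw [Category.assoc, phi_snd, phi_snd, ← Category.assoc, bcs_snd, Category.assoc]
    rfl

theorem rigSection_snd {T : Scheme.{u}} (t : T ⟶ Spec (CommRingCat.of k)) :
    rigSection c t ε ≫ pullback.snd c t = 𝟙 T := pullback.lift_snd _ _ _

section

variable (H : Scheme.{u} → Type u) [∀ X, CommGroup (H X)]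
  (map : ∀ {X Y : Scheme.{u}}, (X ⟶ Y) → H Y →* H X)

/-- the class `[O(y)]` -/
def dPt (delta : H (pullback c c)) {T : Scheme.{u}} (t : T ⟶ Spec (CommRingCat.of k))
    (y : SchemeHomOver t c) : H (pullback c t) :=
  map (phi c t y) delta

/-- rigidification of classes -/
def rho {T : Scheme.{u}} (t : T ⟶ Spec (CommRingCat.of k)) :
    H (pullback c t) →* H (pullback c t) where
  toFun h := h / map (pullback.snd c t) (map (rigSection c t ε) h)
  map_one' := by rw [map_one, map_one, div_one]
  map_mul' x y := by rw [map_mul, map_mul, mul_div_mul_comm]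

theorem rho_apply {T : Scheme.{u}} (t : T ⟶ Spec (CommRingCat.of k)) (h : H (pullback c t)) :
    rho c ε H map t h = h / map (pullback.snd c t) (map (rigSection c t ε) h) := rfl

/-- the rigidified class of a point -/
def rPt (delta : H (pullback c c)) {T : Scheme.{u}} (t : T ⟶ Spec (CommRingCat.of k))
    (y : SchemeHomOver t c) : H (pullback c t) :=
  rho c ε H map t (dPt c H map delta t y)

variable (map_id : ∀ {X : Scheme.{u}} (h : H X), map (𝟙 X) h = h)
  (map_comp : ∀ {X Y Z : Scheme.{u}} (f : X ⟶ Y) (g : Y ⟶ Z) (h : H Z),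
    map (f ≫ g) h = map f (map g h))

include map_id map_comp in
theorem rig_rho {T : Scheme.{u}} (t : T ⟶ Spec (CommRingCat.of k)) (h : H (pullback c t)) :
    map (rigSection c t ε) (rho c ε H map t h) = 1 := by
  rw [rho_apply, map_div, ← map_comp (rigSection c t ε) (pullback.snd c t), rigSection_snd,
    map_id, div_self']

include map_comp in
theorem rho_nat {T T' : Scheme.{u}} (t : T ⟶ Spec (CommRingCat.of k))
    (t' : T' ⟶ Spec (CommRingCat.of k)) (g : SchemeHomOver t' t) (h : H (pullback c t)) :
    map (baseChangeSnd c g) (rho c ε H map t h) =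
      rho c ε H map t' (map (baseChangeSnd c g) h) := by
  rw [rho_apply, rho_apply, map_div, ← map_comp (baseChangeSnd c g) (pullback.snd c t),
    bcs_snd, map_comp, ← map_comp g.1, ← rigSection_baseChangeSnd, map_comp]

include map_comp in
theorem rPt_nat (delta : H (pullback c c)) {T T' : Scheme.{u}}
    (t : T ⟶ Spec (CommRingCat.of k)) (t' : T' ⟶ Spec (CommRingCat.of k))
    (g : SchemeHomOver t' t) (y : SchemeHomOver t c) :
    map (baseChangeSnd c g) (rPt c ε H map delta t y) = rPt c ε H map delta t' (postComp y g) := by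
  rw [rPt, rho_nat c ε H map map_comp, rPt, dPt, dPt, ← map_comp, baseChangeSnd_phi]

/-- generation by rigidified classes of points -/
theorem rPt_gen (delta : H (pullback c c)) {T : Scheme.{u}} (t : T ⟶ Spec (CommRingCat.of k))
    (hgen : ∀ h : H (pullback c t), h ∈ Subgroup.closure (Set.range (dPt c H map delta t)))
    (h : H (pullback c t)) (hh : map (rigSection c t ε) h = 1) :
    h ∈ Subgroup.closure (Set.range (rPt c ε H map delta t)) := by
  have h1 : rho c ε H map t h = h := by rw [rho_apply, hh, map_one, div_one]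
  have h2 : rho c ε H map t h ∈
      (Subgroup.closure (Set.range (dPt c H map delta t))).map (rho c ε H map t) :=
    ⟨h, hgen h, rfl⟩
  rw [MonoidHom.map_closure, h1, ← Set.range_comp] at h2
  exact h2

end

/-- (block M) valuative existence from a class `delta` on `C × C` such that the classes
`(1 × y)^* delta` generate `H¹(C_K)` for all algebraically closed `K ⊇ k`. -/
theorem existence_of_delta {c : C ⟶ Spec (CommRingCat.of k)}
    {ε : SchemeHomOver (𝟙 (Spec (CommRingCat.of k))) c} [IsProper c]
    (H : Scheme.{u} → Type u) [∀ X, CommGroup (H X)]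
    (map : ∀ {X Y : Scheme.{u}}, (X ⟶ Y) → H Y →* H X)
    (map_id : ∀ {X : Scheme.{u}} (h : H X), map (𝟙 X) h = h)
    (map_comp : ∀ {X Y Z : Scheme.{u}} (f : X ⟶ Y) (g : Y ⟶ Z) (h : H Z),
      map (f ≫ g) h = map f (map g h))
    (delta : H (pullback c c))
    (hgen : ∀ (K : Type u) [Field K] [IsAlgClosed K] (s : Spec (CommRingCat.of K) ⟶
      Spec (CommRingCat.of k)) (h : H (pullback c s)),
      h ∈ Subgroup.closure (Set.range fun y : SchemeHomOver s c => map (phi c s y) delta))
    {J : Scheme.{u}} (p : J ⟶ Spec (CommRingCat.of k)) (u : H (pullback c p))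
    (hu : map (rigSection c p ε) u = 1)
    (univ : ∀ {T : Scheme.{u}} (t : T ⟶ Spec (CommRingCat.of k)) (h : H (pullback c t)),
      map (rigSection c t ε) h = 1 → ∃! g : SchemeHomOver t p, map (baseChangeSnd c g) u = h) :
    ValuativeCriterion.Existence p :=
  existence_of_H1 H map map_comp (fun t y => rPt c ε H map delta t y)
    (fun t _ => rig_rho c ε H map map_id map_comp t _)
    (fun t t' g y => rPt_nat c ε H map map_comp delta t t' g y)
    (fun K _ _ s h hh => rPt_gen c ε H map delta s (hgen K s) h hh) p u hu univ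

end Fermat.Agent.JM17

end
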