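import Mathlib

/-!
# S25 (kb 73), block M: local equation of the diagonal of a smooth curve
-/

set_option autoImplicit false

open TensorProduct

namespace Fermat.Agent.JM17

section

variable {k B : Type*} [CommRing k] [CommRing B] [Algebra k B]

/-- Local equation of the diagonal: for `B` étale over `k[T]`, `T ↦ t`, some `h` which is `1` on
the diagonal multiplies the ideal of the diagonal into `(t ⊗ 1 - 1 ⊗ t)`. -/
theorem exists_diag_of_formallyUnramified [Algebra (MvPolynomial (Fin 1) k) B]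
    [IsScalarTower k (MvPolynomial (Fin 1) k) B]
    [Algebra.FormallyUnramified (MvPolynomial (Fin 1) k) B]
    [Algebra.EssFiniteType (MvPolynomial (Fin 1) k) B] (t : B)
    (ht : algebraMap (MvPolynomial (Fin 1) k) B (MvPolynomial.X 0) = t) :
    ∃ h : B ⊗[k] B, Algebra.TensorProduct.lmul' k h = 1 ∧
      ∀ s : B, h * (s ⊗ₜ[k] 1 - 1 ⊗ₜ[k] s) ∈ Ideal.span {t ⊗ₜ[k] 1 - 1 ⊗ₜ[k] t} := by
  set P := MvPolynomial (Fin 1) k with hP
  obtain ⟨τ, hτ1, hτ2⟩ := (Algebra.FormallyUnramified.iff_exists_tensorProduct (R := P)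
    (S := B)).mp inferInstance
  let 𝔞 : Ideal (B ⊗[k] B) := Ideal.span {t ⊗ₜ[k] 1 - 1 ⊗ₜ[k] t}
  let Q := (B ⊗[k] B) ⧸ 𝔞
  let π : B ⊗[k] B →+* Q := Ideal.Quotient.mk 𝔞
  let iL : B →+* B ⊗[k] B := (Algebra.TensorProduct.includeLeft : B →ₐ[k] B ⊗[k] B).toRingHom
  let iR : B →+* B ⊗[k] B := (Algebra.TensorProduct.includeRight : B →ₐ[k] B ⊗[k] B).toRingHom
  have hagree : (π.comp iL).comp (algebraMap P B) = (π.comp iR).comp (algebraMap P B) := by
    apply MvPolynomial.ringHom_ext
    · intro r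
      show π (algebraMap P B (MvPolynomial.C r) ⊗ₜ[k] 1) =
        π (1 ⊗ₜ[k] algebraMap P B (MvPolynomial.C r))
      rw [show algebraMap P B (MvPolynomial.C r) = algebraMap k B r from
        (IsScalarTower.algebraMap_apply k P B r).symm, Algebra.algebraMap_eq_smul_one,
        TensorProduct.smul_tmul]
    · intro i
      obtain rfl : i = 0 := Subsingleton.elim _ _
      show π (algebraMap P B (MvPolynomial.X 0) ⊗ₜ[k] 1) =
        π (1 ⊗ₜ[k] algebraMap P B (MvPolynomial.X 0))
      rw [ht]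
      exact Ideal.Quotient.eq.mpr (Ideal.mem_span_singleton_self _)
  let f : B →ₐ[P] Q := { (π.comp iL) with commutes' := fun r => rfl }
  let g : B →ₐ[P] Q :=
    { (π.comp iR) with commutes' := fun r => (congrArg (fun φ => φ r) hagree).symm }
  let Ψ : B ⊗[P] B →ₐ[P] Q := Algebra.TensorProduct.lift f g (fun _ _ => Commute.all _ _)
  let μ : Q →+* B := Ideal.Quotient.lift 𝔞 (Algebra.TensorProduct.lmul' k (S := B)).toRingHom (by
    intro a ha
    obtain ⟨c, rfl⟩ := Ideal.mem_span_singleton.mp ha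
    simp)
  have hμ : ∀ x : B ⊗[P] B, μ (Ψ x) = Algebra.TensorProduct.lmul' P x := by
    intro x
    induction x with
    | zero => simp
    | add x y hx hy => rw [map_add, map_add, map_add, hx, hy]
    | tmul a b =>
      rw [Algebra.TensorProduct.lift_tmul, map_mul, Algebra.TensorProduct.lmul'_apply_tmul]
      have h1 : μ (f a) = a := by
        show Algebra.TensorProduct.lmul' k (a ⊗ₜ[k] (1 : B)) = a
        rw [Algebra.TensorProduct.lmul'_apply_tmul, mul_one]
      have h2 : μ (g b) = b := by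
        show Algebra.TensorProduct.lmul' k ((1 : B) ⊗ₜ[k] b) = b
        rw [Algebra.TensorProduct.lmul'_apply_tmul, one_mul]
      rw [h1, h2]
  obtain ⟨h, hh⟩ := Ideal.Quotient.mk_surjective (Ψ τ)
  refine ⟨h, ?_, ?_⟩
  · have h1 := hμ τ
    rw [hτ2, ← hh] at h1
    exact h1
  · intro s
    have h1 : Ψ ((1 ⊗ₜ[P] s - s ⊗ₜ[P] 1) * τ) = 0 := by rw [hτ1 s, map_zero]
    rw [map_mul, map_sub, Algebra.TensorProduct.lift_tmul, Algebra.TensorProduct.lift_tmul,
      map_one, map_one, one_mul, mul_one, ← hh] at h1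
    have h2 : Ideal.Quotient.mk 𝔞 ((1 ⊗ₜ[k] s - s ⊗ₜ[k] 1) * h) = 0 := h1
    rw [Ideal.Quotient.eq_zero_iff_mem] at h2
    have h3 := 𝔞.neg_mem h2
    have h4 : h * (s ⊗ₜ[k] 1 - 1 ⊗ₜ[k] s) = -((1 ⊗ₜ[k] s - s ⊗ₜ[k] 1) * h) := by ring
    rw [h4]
    exact h3

theorem mul_left_cancel_mv {D : Type*} [CommRing D] (d : D) (z : MvPolynomial (Fin 1) D)
    (h : (MvPolynomial.X 0 - MvPolynomial.C d) * z = 0) : z = 0 := by
  let e := MvPolynomial.uniqueAlgEquiv D (Fin 1)
  apply e.injective
  rw [map_zero]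
  have h1 : (Polynomial.X - Polynomial.C d) * e z = 0 := by
    rw [← map_zero e, ← h, map_mul, map_sub]
    congr 2
    · simp [e]
    · simp [e]
  exact (mem_nonZeroDivisors_iff_left.mp (Polynomial.monic_X_sub_C d).mem_nonZeroDivisors) _ h1

/-- For `B` flat over `k[T]`, `T ↦ t`, the element `t ⊗ 1 - 1 ⊗ d` of `B ⊗ D` is a nonzerodivisor
for every `k`-algebra `D` and `d : D`. -/
theorem tmul_sub_mem_nonZeroDivisors [Algebra (MvPolynomial (Fin 1) k) B]
    [IsScalarTower k (MvPolynomial (Fin 1) k) B] [Module.Flat (MvPolynomial (Fin 1) k) B] (t : B)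
    (ht : algebraMap (MvPolynomial (Fin 1) k) B (MvPolynomial.X 0) = t)
    {D : Type*} [CommRing D] [Algebra k D] (d : D) :
    t ⊗ₜ[k] (1 : D) - (1 : B) ⊗ₜ[k] d ∈ nonZeroDivisors (B ⊗[k] D) := by
  set P := MvPolynomial (Fin 1) k with hP
  let a : P ⊗[k] D := MvPolynomial.X 0 ⊗ₜ[k] (1 : D) - 1 ⊗ₜ[k] d
  let m : P ⊗[k] D →ₗ[P] P ⊗[k] D := LinearMap.mulLeft P a
  have hm : Function.Injective m := by
    rw [← LinearMap.ker_eq_bot, LinearMap.ker_eq_bot']
    intro z hz
    have hz' : a * z = 0 := hz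
    let e : P ⊗[k] D ≃+* MvPolynomial (Fin 1) D :=
      (Algebra.TensorProduct.comm k P D).toRingEquiv.trans
        (MvPolynomial.algebraTensorAlgEquiv k D).toRingEquiv
    apply e.injective
    rw [map_zero]
    apply mul_left_cancel_mv d
    rw [← map_zero e, ← hz', map_mul]
    congr 1
    show _ = (MvPolynomial.algebraTensorAlgEquiv k D)
      ((Algebra.TensorProduct.comm k P D) (MvPolynomial.X 0 ⊗ₜ[k] (1 : D) - 1 ⊗ₜ[k] d))
    rw [map_sub, map_sub, Algebra.TensorProduct.comm_tmul, Algebra.TensorProduct.comm_tmul,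
      MvPolynomial.algebraTensorAlgEquiv_tmul, MvPolynomial.algebraTensorAlgEquiv_tmul]
    simp [MvPolynomial.smul_eq_C_mul]
  have h1 := Module.Flat.lTensor_preserves_injective_linearMap (M := B) m hm
  let c := TensorProduct.AlgebraTensorModule.cancelBaseChange k P B B D
  have h2 : ∀ y : B ⊗[P] (P ⊗[k] D),
      c (LinearMap.lTensor B m y) = (t ⊗ₜ[k] (1 : D) - (1 : B) ⊗ₜ[k] d) * c y := by
    intro y
    induction y with
    | zero => simp
    | add x y hx hy => rw [map_add, map_add, map_add, hx, hy, mul_add]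
    | tmul b z =>
      induction z with
      | zero => simp
      | add x y hx hy =>
        rw [TensorProduct.tmul_add, map_add, map_add, map_add, hx, hy, mul_add]
      | tmul p δ =>
        rw [LinearMap.lTensor_tmul]
        have h3 : m (p ⊗ₜ[k] δ) = (MvPolynomial.X 0 * p) ⊗ₜ[k] δ - p ⊗ₜ[k] (d * δ) := by
          show (MvPolynomial.X 0 ⊗ₜ[k] (1 : D) - 1 ⊗ₜ[k] d) * (p ⊗ₜ[k] δ) = _
          rw [sub_mul, Algebra.TensorProduct.tmul_mul_tmul, Algebra.TensorProduct.tmul_mul_tmul,
            one_mul, one_mul]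
        rw [h3, TensorProduct.tmul_sub, map_sub]
        show TensorProduct.AlgebraTensorModule.cancelBaseChange k P B B D _ -
          TensorProduct.AlgebraTensorModule.cancelBaseChange k P B B D _ = _ *
          TensorProduct.AlgebraTensorModule.cancelBaseChange k P B B D _
        rw [TensorProduct.AlgebraTensorModule.cancelBaseChange_tmul,
          TensorProduct.AlgebraTensorModule.cancelBaseChange_tmul,
          TensorProduct.AlgebraTensorModule.cancelBaseChange_tmul, sub_mul,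
          Algebra.TensorProduct.tmul_mul_tmul, Algebra.TensorProduct.tmul_mul_tmul, one_mul,
          one_mul, mul_smul, Algebra.smul_def (MvPolynomial.X 0 : P), ht]
  rw [mem_nonZeroDivisors_iff_left]
  intro x hx
  obtain ⟨y, rfl⟩ := c.surjective x
  have h3 : c (LinearMap.lTensor B m y) = 0 := by rw [h2, hx]
  have h4 : LinearMap.lTensor B m y = 0 := by
    apply c.injective; rw [h3, map_zero]
  have h5 : y = 0 := h1 (by rw [h4, map_zero])
  rw [h5, map_zero]

end

end Fermat.Agent.JM17
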