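import Fermat.Agent.JM.Descent
import Fermat.Prelude.Def_AlgebraicGeometry_RepresentsRelSubPic
import Fermat.Prelude.Def_AlgebraicGeometry_RelativePicardFunctor

/-!
# S25 (kb 73), block M5: valuative existence for the representing scheme
-/

set_option autoImplicit false

universe u

open CategoryTheory CategoryTheory.Limits AlgebraicGeometry AlgebraicGeometry.RelPicard
  NeronModelInfra

namespace Fermat.Agent.JM17

section

variable {k : Type u} [Field k] {C : Scheme.{u}} (c : C ⟶ Spec (CommRingCat.of k))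
  (ε : SchemeHomOver (𝟙 (Spec (CommRingCat.of k))) c)

/-- Output of M3: rigidified line bundles extend from the generic point of a valuation ring with
algebraically closed fraction field. -/
def ExtStmt : Prop :=
  ∀ (O K : Type u) [CommRing O] [IsDomain O] [ValuationRing O] [Field K] [IsAlgClosed K]
    [Algebra O K] [IsFractionRing O K] (t : Spec (CommRingCat.of O) ⟶ Spec (CommRingCat.of k))
    (M : RigidifiedLineBundle c ε (Spec.map (CommRingCat.ofHom (algebraMap O K)) ≫ t)),
    ∃ M' : RigidifiedLineBundle c ε t,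
      Nonempty ((M'.pullbackAlong ⟨Spec.map (CommRingCat.ofHom (algebraMap O K)), rfl⟩).L ≅ M.L)

variable {c ε}

/-- composition of pullbacks of rigidified line bundles -/
theorem nonempty_pullbackAlong_postComp {T T' T'' : Scheme.{u}}
    {t : T ⟶ Spec (CommRingCat.of k)} {t' : T' ⟶ Spec (CommRingCat.of k)}
    {t'' : T'' ⟶ Spec (CommRingCat.of k)} (M : RigidifiedLineBundle c ε t)
    (φ : SchemeHomOver t' t) (ψ : SchemeHomOver t'' t') :
    Nonempty ((M.pullbackAlong (postComp φ ψ)).L ≅ ((M.pullbackAlong φ).pullbackAlong ψ).L) :=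
  ⟨(Scheme.Modules.pullbackCongr (baseChangeSnd_comp c φ ψ).symm).app M.L ≪≫
    ((Scheme.Modules.pullbackComp _ _).app M.L).symm⟩

/-- (M5) the representing scheme of the rigidified Picard functor satisfies the existence part of
the valuative criterion. -/
theorem existence_of_ext (hext : ExtStmt c ε) {J : Scheme.{u}}
    (p : J ⟶ Spec (CommRingCat.of k)) (Q : RigidifiedLineBundle c ε p)
    (univ : ∀ {T : Scheme.{u}} (t : T ⟶ Spec (CommRingCat.of k))
      (M : RigidifiedLineBundle c ε t),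
      ∃! g : SchemeHomOver t p, Nonempty ((Q.pullbackAlong g).L ≅ M.L)) :
    ValuativeCriterion.Existence p := by
  apply JM.existence_of_isAlgClosed
  intro S hS
  let g : SchemeHomOver (Spec.map (CommRingCat.ofHom (algebraMap S.R S.K)) ≫ S.i₂) S.i₂ :=
    ⟨Spec.map (CommRingCat.ofHom (algebraMap S.R S.K)), rfl⟩
  let z : SchemeHomOver (Spec.map (CommRingCat.ofHom (algebraMap S.R S.K)) ≫ S.i₂) p :=
    ⟨S.i₁, S.commSq.w⟩
  obtain ⟨M', ⟨e⟩⟩ := hext S.R S.K S.i₂ (Q.pullbackAlong z)
  obtain ⟨w, ⟨e'⟩, -⟩ := univ S.i₂ M'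
  obtain ⟨e''⟩ := nonempty_pullbackAlong_postComp Q w g
  have h1 : Nonempty ((Q.pullbackAlong (postComp w g)).L ≅ (Q.pullbackAlong z).L) :=
    ⟨e'' ≪≫ (RigidifiedLineBundle.pullbackAlong_congr g ⟨e'⟩).some ≪≫ e⟩
  obtain ⟨z', -, hz'⟩ := univ _ (Q.pullbackAlong z)
  have h2 : postComp w g = z := (hz' _ h1).trans (hz' z ⟨Iso.refl _⟩).symm
  exact ⟨⟨⟨w.1, congrArg Subtype.val h2, w.2⟩⟩⟩

end

end Fermat.Agent.JM17
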