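import Fermat.Agent.JM17.Final
import Fermat.Agent.JFin.Final
import Fermat.Agent.JM.Pt

/-!
# S25 (kb 73), block M: the input `ExistStmt` of the final assembly
-/

set_option autoImplicit false

noncomputable section

universe u

open CategoryTheory CategoryTheory.Limits AlgebraicGeometry AlgebraicGeometry.RelPicard
  NeronModelInfra
open Fermat.Agent.JMod

namespace Fermat.Agent.JM17

variable {k : Type u} [Field k] {C : Scheme.{u}} {c : C ⟶ Spec (CommRingCat.of k)}
  {ε : SchemeHomOver (𝟙 (Spec (CommRingCat.of k))) c}

/-- from generation of `H¹(C_K)` by the classes of points -/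
theorem existStmt_of_gen [IsProper c] (L : LC (pullback c c))
    (hgen : ∀ (K : Type u) [Field K] [IsAlgClosed K] (s : Spec (CommRingCat.of K) ⟶
      Spec (CommRingCat.of k)) (h : H1 (pullback c s)),
      h ∈ Subgroup.closure (Set.range fun y : SchemeHomOver s c =>
        H1.map (phi c s y) (H1.mk L))) : JFin.ExistStmt c ε := by
  intro J p univ huniv
  refine existence_of_delta (ε := ε) (fun X => H1 X) (fun f => H1.map f) (fun h => H1.map_id h)
    (fun f g h => H1.map_comp f g h) (H1.mk L) hgen p univ.1 univ.2 ?_
  intro T t h hh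
  obtain ⟨g, hg, hg'⟩ := huniv t ⟨h, hh⟩
  exact ⟨g, congrArg Subtype.val hg, fun g' h' => hg' g' (Subtype.ext h')⟩

theorem existStmt_of_diagData [IsAlgClosed k] [IsProper c] [SmoothOfRelativeDimension 1 c]
    [IsIntegral C] (D : DiagData c) : JFin.ExistStmt c ε :=
  existStmt_of_gen D.lc fun K _ _ s h => hgen_of_diagData D K s h

/-- **block M** -/
theorem existStmt [IsAlgClosed k] [IsProper c] [SmoothOfRelativeDimension 1 c] [IsIntegral C] :
    JFin.ExistStmt c ε := by
  obtain ⟨L, hL⟩ := JM.exists_delta_gen c ε
  exact existStmt_of_gen L hL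

end Fermat.Agent.JM17

end
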