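import Fermat.Agent.JM17.Exist

/-!
# S25 (kb 73), block M3: line bundles extend from the generic point of a valuation ring with
algebraically closed fraction field
-/

set_option autoImplicit false

universe u

open CategoryTheory CategoryTheory.Limits AlgebraicGeometry AlgebraicGeometry.RelPicard
  NeronModelInfra

namespace Fermat.Agent.JM17

/-- The interface of `H¹(X, 𝒪ˣ)` used here. -/
structure HData where
  H : Scheme.{u} → Type u
  grp : ∀ X, CommGroup (H X)
  map : ∀ {X Y : Scheme.{u}}, (X ⟶ Y) → H Y →* H X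
  map_comp : ∀ {X Y Z : Scheme.{u}} (f : X ⟶ Y) (g : Y ⟶ Z) (h : H Z),
    map (f ≫ g) h = map f (map g h)
  cl : ∀ {X : Scheme.{u}} (M : X.Modules), Scheme.Modules.IsInvertible M → H X
  cl_eq_iff : ∀ {X : Scheme.{u}} (M N : X.Modules) (hM : Scheme.Modules.IsInvertible M)
    (hN : Scheme.Modules.IsInvertible N), cl M hM = cl N hN ↔ Nonempty (M ≅ N)
  exists_cl : ∀ {X : Scheme.{u}} (h : H X), ∃ (M : X.Modules)
    (hM : Scheme.Modules.IsInvertible M), cl M hM = h
  cl_pullback : ∀ {X Y : Scheme.{u}} (f : X ⟶ Y) (M : Y.Modules)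
    (hM : Scheme.Modules.IsInvertible M), cl ((Scheme.Modules.pullback f).obj M) (hM.pullback f) =
      map f (cl M hM)
  cl_unit : ∀ X : Scheme.{u}, cl (SheafOfModules.unit X.ringCatSheaf)
    (Scheme.Modules.isInvertible_unit X) = 1

attribute [instance] HData.grp

variable {k : Type u} [Field k] {C : Scheme.{u}} (c : C ⟶ Spec (CommRingCat.of k))
  (ε : SchemeHomOver (𝟙 (Spec (CommRingCat.of k))) c)

/-- the classes `[O(y)]` (rigidified) attached to points of the curve -/
structure PtData (𝓗 : HData.{u}) where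
  rPt : ∀ {T : Scheme.{u}} (t : T ⟶ Spec (CommRingCat.of k)), SchemeHomOver t c →
    𝓗.H (pullback c t)
  rig : ∀ {T : Scheme.{u}} (t : T ⟶ Spec (CommRingCat.of k)) (y : SchemeHomOver t c),
    𝓗.map (rigSection c t ε) (rPt t y) = 1
  nat : ∀ {T T' : Scheme.{u}} (t : T ⟶ Spec (CommRingCat.of k))
    (t' : T' ⟶ Spec (CommRingCat.of k)) (g : SchemeHomOver t' t) (y : SchemeHomOver t c),
    𝓗.map (baseChangeSnd c g) (rPt t y) = rPt t' (postComp y g)
  gen : ∀ (K : Type u) [Field K] [IsAlgClosed K] (s : Spec (CommRingCat.of K) ⟶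
    Spec (CommRingCat.of k)) (h : 𝓗.H (pullback c s)), 𝓗.map (rigSection c s ε) h = 1 →
    h ∈ Subgroup.closure (Set.range (rPt s))

variable {c ε}

/-- a point of the proper `c` with values in the fraction field of a valuation ring extends -/
theorem exists_extend_pt [IsProper c] {O K : Type u} [CommRing O] [IsDomain O] [ValuationRing O]
    [Field K] [Algebra O K] [IsFractionRing O K]
    (t : Spec (CommRingCat.of O) ⟶ Spec (CommRingCat.of k))
    (y : SchemeHomOver (Spec.map (CommRingCat.ofHom (algebraMap O K)) ≫ t) c) :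
    ∃ y' : SchemeHomOver t c,
      postComp y' (⟨Spec.map (CommRingCat.ofHom (algebraMap O K)), rfl⟩ : SchemeHomOver _ t) =
        y := by
  have hV : ValuativeCriterion c := by
    have h1 : (@IsProper) c := inferInstance
    rw [IsProper.eq_valuativeCriterion] at h1
    exact h1.1.1.1
  let S : ValuativeCommSq c :=
    { R := O, K := K, i₁ := y.1, i₂ := t, commSq := ⟨y.2⟩ }
  obtain ⟨l, hl₁, hl₂⟩ := (hV.existence S).exists_lift
  exact ⟨⟨l, hl₂⟩, Subtype.ext hl₁⟩

/-- (M3) -/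
theorem extStmt [IsProper c] (𝓗 : HData.{u}) (𝓟 : PtData c ε 𝓗) : ExtStmt c ε := by
  intro O K _ _ _ _ _ _ _ t M
  let s := Spec.map (CommRingCat.ofHom (algebraMap O K)) ≫ t
  let g : SchemeHomOver s t := ⟨Spec.map (CommRingCat.ofHom (algebraMap O K)), rfl⟩
  let S : Subgroup (𝓗.H (pullback c s)) :=
    ((𝓗.map (rigSection c t ε)).ker).map (𝓗.map (baseChangeSnd c g))
  have hS : Subgroup.closure (Set.range (𝓟.rPt s)) ≤ S := by
    rw [Subgroup.closure_le]
    rintro _ ⟨y, rfl⟩
    obtain ⟨y', hy'⟩ := exists_extend_pt t y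
    refine ⟨𝓟.rPt t y', 𝓟.rig t y', ?_⟩
    rw [𝓟.nat t s g y']
    exact congrArg (𝓟.rPt s) hy'
  have hrig : 𝓗.map (rigSection c s ε) (𝓗.cl M.L M.isInvertible) = 1 :=
    (𝓗.cl_pullback (rigSection c s ε) M.L M.isInvertible).symm.trans
      (((𝓗.cl_eq_iff _ _ _ (Scheme.Modules.isInvertible_unit _)).mpr M.rigidified).trans
        (𝓗.cl_unit _))
  obtain ⟨h', hh', hh⟩ := hS (𝓟.gen K s _ hrig)
  obtain ⟨N, hN, rfl⟩ := 𝓗.exists_cl h'
  have hNr : Nonempty ((Scheme.Modules.pullback (rigSection c t ε)).obj N ≅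
      SheafOfModules.unit (Spec (CommRingCat.of O)).ringCatSheaf) :=
    (𝓗.cl_eq_iff _ _ (hN.pullback _) (Scheme.Modules.isInvertible_unit _)).mp
      ((𝓗.cl_pullback _ _ _).trans ((show _ = _ from hh').trans (𝓗.cl_unit _).symm))
  refine ⟨⟨N, hN, hNr⟩, ?_⟩
  exact (𝓗.cl_eq_iff _ _ (hN.pullback (baseChangeSnd c g)) M.isInvertible).mp
    ((𝓗.cl_pullback _ _ _).trans hh)

end Fermat.Agent.JM17
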