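import Fermat.Agent.JM17.Pt
import Fermat.Agent.JM.Gen
import Fermat.Agent.JM27.Cls
import Fermat.Agent.JNa.GI
import Fermat.Agent.JMod.H1Group

/-!
# S25 (kb 73), block M: valuative existence from local equations of the diagonal
-/

set_option autoImplicit false

noncomputable section

universe u

open CategoryTheory CategoryTheory.Limits AlgebraicGeometry AlgebraicGeometry.RelPicard
  NeronModelInfra
open Fermat.Agent.JMod Fermat.Agent.JM27 Fermat.Agent.JM

namespace Fermat.Agent.JM17

variable {k : Type u} [Field k] {C : Scheme.{u}}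

/-- Local equations of the diagonal of `C × C`: cocycle, local equations `s`, and the pull-backs
along `1 × y` are point-like Cartier data on `C_K` for algebraically closed `K`. -/
structure DiagData (c : C ⟶ Spec (CommRingCat.of k)) where
  lc : LC (pullback c c)
  s : ∀ p, Γ(pullback c c, lc.U p)
  hs : ∀ p q, ores (inf_le_left : lc.U p ⊓ lc.U q ≤ lc.U p) (s p) =
    (lc.g p q : Γ(pullback c c, lc.U p ⊓ lc.U q)) *
      ores (inf_le_right : lc.U p ⊓ lc.U q ≤ lc.U q) (s q)
  pt : ∀ (K : Type u) [Field K] [IsAlgClosed K] (σ : Spec (CommRingCat.of K) ⟶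
    Spec (CommRingCat.of k)) [IsIntegral (pullback c σ)] (ξ : ↥(pullback c σ)),
    IsClosed ({ξ} : Set ↥(pullback c σ)) → ∃ y : SchemeHomOver σ c,
      ∃ hne : ∀ z, pbf (phi c σ y) lc s z ≠ 0, (pbCD (phi c σ y) lc s hs hne).IsPoint ξ

theorem hgen_of_diagData [IsAlgClosed k] {c : C ⟶ Spec (CommRingCat.of k)} [IsProper c]
    [SmoothOfRelativeDimension 1 c] [IsIntegral C] (D : DiagData c)
    (K : Type u) [Field K] [IsAlgClosed K] (σ : Spec (CommRingCat.of K) ⟶
      Spec (CommRingCat.of k)) (h : H1 (pullback c σ)) :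
    h ∈ Subgroup.closure (Set.range fun y : SchemeHomOver σ c =>
      H1.map (phi c σ y) (H1.mk D.lc)) := by
  have hint : IsIntegral (pullback c σ) := JNa.isIntegral_pullback_right c σ
  have hcomp : CompactSpace ↥(pullback c σ) :=
    (quasiCompact_iff_compactSpace (pullback.snd c σ)).mp inferInstance
  have hst : MorphismProperty.IsStableUnderBaseChange (@SmoothOfRelativeDimension 1) :=
    smoothOfRelativeDimension_isStableUnderBaseChange 1
  have hsm : SmoothOfRelativeDimension 1 (pullback.snd c σ) :=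
    MorphismProperty.pullback_snd (P := @SmoothOfRelativeDimension 1) c σ inferInstance
  obtain ⟨E, rfl⟩ := cls_surj h
  refine mem_closure_of_points (pullback.snd c σ) cls cls_mul cls_zpow (fun D hD => cls_one hD)
    _ ?_ E
  intro ξ hξ
  obtain ⟨y, hne, hpt⟩ := D.pt K σ ξ hξ
  refine ⟨_, hpt, ?_⟩
  rw [← map_mk_eq_cls]
  exact Subgroup.subset_closure ⟨y, rfl⟩

/-- (block M) valuative existence -/
theorem existence_of_diagData [IsAlgClosed k] {c : C ⟶ Spec (CommRingCat.of k)}
    {ε : SchemeHomOver (𝟙 (Spec (CommRingCat.of k))) c} [IsProper c]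
    [SmoothOfRelativeDimension 1 c] [IsIntegral C] (D : DiagData c)
    {J : Scheme.{u}} (p : J ⟶ Spec (CommRingCat.of k)) (u : H1 (pullback c p))
    (hu : H1.map (rigSection c p ε) u = 1)
    (univ : ∀ {T : Scheme.{u}} (t : T ⟶ Spec (CommRingCat.of k)) (h : H1 (pullback c t)),
      H1.map (rigSection c t ε) h = 1 →
        ∃! g : SchemeHomOver t p, H1.map (baseChangeSnd c g) u = h) :
    ValuativeCriterion.Existence p :=
  existence_of_delta (fun X => H1 X) (fun f => H1.map f) (fun h => H1.map_id h)
    (fun f g h => H1.map_comp f g h) (H1.mk D.lc)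
    (fun K _ _ σ h => hgen_of_diagData D K σ h) p u hu univ

end Fermat.Agent.JM17

end
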